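import Fermat.Agent.LT.T6.H783.BadSpec

/-!
# Row LT, tower T6, leaves T6.18c `CutC783` and T6.18c' `FinSuppLvlC783` (helper125)

OFF-MAIN.  Both leaves of `LT/T6/H783/BadSpec.lean` (helper783, sha256 c79abacc), VERBATIM:

* `cutC125 : CutC783`: the cut-off of a bi-`U(m)`-invariant function of finite support by a
  smooth predicate on `(tr, det)` is bi-`U(m')`-invariant for some `m' ≥ m`.
* `finSuppLvlC125 : FinSuppLvlC783`: a function supported on finitely many cosets `x U(m)` is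
  supported on finitely many cosets `x U(m')`.

Only the ultrametric inequality is used for the first leaf; the second one uses the finite
residue system and the uniformiser of `IsLocalField`.
-/

set_option autoImplicit false

open scoped Matrix

noncomputable section

namespace Fermat.Agent.LT.T6.H125

open Fermat.Agent.LT.T6 Fermat.Agent.LT.T6.H783

variable {k : Type} [Field k] [Valued k Γ₀]

/-! ## Ultrametric bookkeeping -/

theorem v_add_le125 {a b : k} {c : Γ₀} (ha : Valued.v a ≤ c) (hb : Valued.v b ≤ c) :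
    Valued.v (a + b) ≤ c :=
  (Valued.v.map_add a b).trans (max_le ha hb)

theorem v_sub_le125 {a b : k} {c : Γ₀} (ha : Valued.v a ≤ c) (hb : Valued.v b ≤ c) :
    Valued.v (a - b) ≤ c :=
  (Valued.v.map_sub a b).trans (max_le ha hb)

theorem v_mul_le125 {a b : k} {c d : Γ₀} (ha : Valued.v a ≤ c) (hb : Valued.v b ≤ d) :
    Valued.v (a * b) ≤ c * d := by
  rw [map_mul]
  exact mul_le_mul' ha hb

theorem exp_neg_le_one125 (n : ℕ) : WithZero.exp (-(n : ℤ)) ≤ (1 : Γ₀) := by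
  rw [← WithZero.exp_zero]
  exact WithZero.exp_le_exp.2 (by omega)

theorem exp_neg_anti125 {m m' : ℕ} (h : m ≤ m') :
    WithZero.exp (-(m' : ℤ)) ≤ (WithZero.exp (-(m : ℤ)) : Γ₀) :=
  WithZero.exp_le_exp.2 (by omega)

theorem v_one_entry125 (i j : Fin 2) :
    Valued.v ((1 : Matrix (Fin 2) (Fin 2) k) i j) ≤ (1 : Γ₀) := by
  by_cases h : i = j
  · subst h
    simp
  · simp [Matrix.one_apply_ne h]

/-- Entries of a product of `2 × 2` matrices. -/
theorem v_mul_entry125 {A B : Matrix (Fin 2) (Fin 2) k} {a b : Γ₀}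
    (hA : ∀ i j, Valued.v (A i j) ≤ a) (hB : ∀ i j, Valued.v (B i j) ≤ b) (i j : Fin 2) :
    Valued.v ((A * B) i j) ≤ a * b := by
  rw [Matrix.mul_apply, Fin.sum_univ_two]
  exact v_add_le125 (v_mul_le125 (hA _ _) (hB _ _)) (v_mul_le125 (hA _ _) (hB _ _))

theorem v_trace_le125 {A : Matrix (Fin 2) (Fin 2) k} {a : Γ₀}
    (hA : ∀ i j, Valued.v (A i j) ≤ a) : Valued.v A.trace ≤ a := by
  rw [Matrix.trace_fin_two]
  exact v_add_le125 (hA _ _) (hA _ _)

/-! ## The groups `U(n)` -/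

theorem inU_entry125 {n : ℕ} {g : GL (Fin 2) k} (h : InU n g) (i j : Fin 2) :
    Valued.v ((g : Matrix (Fin 2) (Fin 2) k) i j) ≤ 1 := by
  have h1 := (h i j).1
  have h2 : (g : Matrix (Fin 2) (Fin 2) k) i j
      = ((g : Matrix (Fin 2) (Fin 2) k) i j - (1 : Matrix (Fin 2) (Fin 2) k) i j)
        + (1 : Matrix (Fin 2) (Fin 2) k) i j := by ring
  rw [h2]
  exact v_add_le125 (h1.trans (exp_neg_le_one125 n)) (v_one_entry125 i j)

theorem inU_inv_entry125 {n : ℕ} {g : GL (Fin 2) k} (h : InU n g) (i j : Fin 2) :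
    Valued.v (((g⁻¹ : GL (Fin 2) k) : Matrix (Fin 2) (Fin 2) k) i j) ≤ 1 := by
  have h1 := (h i j).2
  have h2 : ((g⁻¹ : GL (Fin 2) k) : Matrix (Fin 2) (Fin 2) k) i j
      = (((g⁻¹ : GL (Fin 2) k) : Matrix (Fin 2) (Fin 2) k) i j
          - (1 : Matrix (Fin 2) (Fin 2) k) i j)
        + (1 : Matrix (Fin 2) (Fin 2) k) i j := by ring
  rw [h2]
  exact v_add_le125 (h1.trans (exp_neg_le_one125 n)) (v_one_entry125 i j)

theorem inU_mono125 {m m' : ℕ} (h : m ≤ m') {g : GL (Fin 2) k} (hg : InU m' g) : InU m g :=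
  fun i j => ⟨(hg i j).1.trans (exp_neg_anti125 h), (hg i j).2.trans (exp_neg_anti125 h)⟩

/-- `det u ≡ 1` modulo `ϖⁿ` for `u ∈ U(n)`. -/
theorem inU_det_sub_one125 {n : ℕ} {u : GL (Fin 2) k} (h : InU n u) :
    Valued.v ((u : Matrix (Fin 2) (Fin 2) k).det - 1) ≤ WithZero.exp (-(n : ℤ)) := by
  set ε : Γ₀ := WithZero.exp (-(n : ℤ)) with hε
  have hε1 : ε ≤ 1 := exp_neg_le_one125 n
  have h00 : Valued.v ((u : Matrix (Fin 2) (Fin 2) k) 0 0 - 1) ≤ ε := by
    have := (h 0 0).1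
    rwa [Matrix.one_apply_eq] at this
  have h11 : Valued.v ((u : Matrix (Fin 2) (Fin 2) k) 1 1 - 1) ≤ ε := by
    have := (h 1 1).1
    rwa [Matrix.one_apply_eq] at this
  have h01 : Valued.v ((u : Matrix (Fin 2) (Fin 2) k) 0 1) ≤ ε := by
    have := (h 0 1).1
    rwa [Matrix.one_apply_ne (by decide), sub_zero] at this
  have h10 : Valued.v ((u : Matrix (Fin 2) (Fin 2) k) 1 0) ≤ ε := by
    have := (h 1 0).1
    rwa [Matrix.one_apply_ne (by decide), sub_zero] at this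
  have hεε : ε * ε ≤ ε := by
    calc ε * ε ≤ ε * 1 := mul_le_mul' le_rfl hε1
      _ = ε := mul_one ε
  have hd : (u : Matrix (Fin 2) (Fin 2) k).det - 1
      = (((u : Matrix (Fin 2) (Fin 2) k) 0 0 - 1) + ((u : Matrix (Fin 2) (Fin 2) k) 1 1 - 1))
        + (((u : Matrix (Fin 2) (Fin 2) k) 0 0 - 1) * ((u : Matrix (Fin 2) (Fin 2) k) 1 1 - 1)
          - (u : Matrix (Fin 2) (Fin 2) k) 0 1 * (u : Matrix (Fin 2) (Fin 2) k) 1 0) := by
    rw [Matrix.det_fin_two]
    ring
  rw [hd]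
  exact v_add_le125 (v_add_le125 h00 h11)
    (v_sub_le125 ((v_mul_le125 h00 h11).trans hεε) ((v_mul_le125 h01 h10).trans hεε))

theorem inU_det_le_one125 {n : ℕ} {u : GL (Fin 2) k} (h : InU n u) :
    Valued.v (u : Matrix (Fin 2) (Fin 2) k).det ≤ 1 := by
  have h2 : (u : Matrix (Fin 2) (Fin 2) k).det
      = ((u : Matrix (Fin 2) (Fin 2) k).det - 1) + 1 := by ring
  rw [h2]
  exact v_add_le125 ((inU_det_sub_one125 h).trans (exp_neg_le_one125 n)) (by simp)

/-! ## T6.18c: the cut-off -/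

/-- Perturbation of the trace and of the determinant under `g ↦ u g u'`, `u, u' ∈ U(n)`, for `g`
with entries and determinant bounded by `C`. -/
theorem pert125 {n : ℕ} {u u' g : GL (Fin 2) k} {C : Γ₀} (hu : InU n u) (hu' : InU n u')
    (hg : ∀ i j, Valued.v ((g : Matrix (Fin 2) (Fin 2) k) i j) ≤ C)
    (hd : Valued.v (g : Matrix (Fin 2) (Fin 2) k).det ≤ C) :
    Valued.v (((u * g * u' : GL (Fin 2) k) : Matrix (Fin 2) (Fin 2) k).trace
        - (g : Matrix (Fin 2) (Fin 2) k).trace) ≤ C * WithZero.exp (-(n : ℤ)) ∧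
      Valued.v (((u * g * u' : GL (Fin 2) k) : Matrix (Fin 2) (Fin 2) k).det
        - (g : Matrix (Fin 2) (Fin 2) k).det) ≤ C * WithZero.exp (-(n : ℤ)) := by
  have hcoe : ((u * g * u' : GL (Fin 2) k) : Matrix (Fin 2) (Fin 2) k)
      = (u : Matrix (Fin 2) (Fin 2) k) * (g : Matrix (Fin 2) (Fin 2) k)
        * (u' : Matrix (Fin 2) (Fin 2) k) := by
    simp [Units.val_mul]
  rw [hcoe]
  have hU1 : ∀ i j, Valued.v (((u : Matrix (Fin 2) (Fin 2) k) - 1) i j)
      ≤ WithZero.exp (-(n : ℤ)) := fun i j => (hu i j).1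
  have hU'1 : ∀ i j, Valued.v (((u' : Matrix (Fin 2) (Fin 2) k) - 1) i j)
      ≤ WithZero.exp (-(n : ℤ)) := fun i j => (hu' i j).1
  have hU'e := inU_entry125 hu'
  have hdU := inU_det_sub_one125 hu
  have hdU' := inU_det_sub_one125 hu'
  have hdU'1 := inU_det_le_one125 hu'
  generalize (u : Matrix (Fin 2) (Fin 2) k) = U at hU1 hdU ⊢
  generalize (u' : Matrix (Fin 2) (Fin 2) k) = U' at hU'1 hU'e hdU' hdU'1 ⊢
  generalize (g : Matrix (Fin 2) (Fin 2) k) = G at hg hd ⊢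
  generalize (WithZero.exp (-(n : ℤ)) : Γ₀) = ε at *
  constructor
  · have hdiff : U * G * U' - G = (U - 1) * G * U' + G * (U' - 1) := by noncomm_ring
    rw [← Matrix.trace_sub, hdiff]
    apply v_trace_le125
    intro i j
    rw [Matrix.add_apply]
    refine v_add_le125 ?_ ?_
    · have := v_mul_entry125 (v_mul_entry125 hU1 hg) hU'e i j
      rwa [mul_one, mul_comm] at this
    · exact v_mul_entry125 hg hU'1 i j
  · rw [Matrix.det_mul, Matrix.det_mul]
    have h2 : U.det * G.det * U'.det - G.det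
        = G.det * ((U.det - 1) * U'.det + (U'.det - 1)) := by ring
    rw [h2]
    refine v_mul_le125 hd (v_add_le125 ?_ hdU')
    have := v_mul_le125 hdU hdU'1
    rwa [mul_one] at this

/-- **T6.18c** `CutC783`. -/
theorem cutC125 : CutC783 := by
  intro k _ _ q _ m f hinv hsupp N P hP
  obtain ⟨F, hF⟩ := hsupp
  classical
  set C : Γ₀ := (F.sup fun x : GL (Fin 2) k =>
    max (entryMax x) (Valued.v (x : Matrix (Fin 2) (Fin 2) k).det)) ⊔ 1 with hC
  have hC1 : (1 : Γ₀) ≤ C := le_sup_right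
  have hC0 : C ≠ 0 := (lt_of_lt_of_le zero_lt_one hC1).ne'
  have hCx : ∀ x ∈ F, (∀ i j, Valued.v ((x : Matrix (Fin 2) (Fin 2) k) i j) ≤ C) ∧
      Valued.v (x : Matrix (Fin 2) (Fin 2) k).det ≤ C := by
    intro x hx
    have h1 : max (entryMax x) (Valued.v (x : Matrix (Fin 2) (Fin 2) k).det) ≤ C :=
      (Finset.le_sup (f := fun x : GL (Fin 2) k =>
        max (entryMax x) (Valued.v (x : Matrix (Fin 2) (Fin 2) k).det)) hx).trans le_sup_left
    refine ⟨fun i j => ?_, (le_max_right _ _).trans h1⟩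
    refine le_trans ?_ ((le_max_left _ _).trans h1)
    exact Finset.le_sup' (fun p : Fin 2 × Fin 2 =>
      Valued.v ((x : Matrix (Fin 2) (Fin 2) k) p.1 p.2)) (Finset.mem_univ (i, j))
  have hCc : (WithZero.exp (WithZero.log C) : Γ₀) = C := WithZero.exp_log hC0
  refine ⟨max m (N + WithZero.log C).toNat, le_max_left _ _, ?_⟩
  set m' : ℕ := max m (N + WithZero.log C).toNat with hm'
  have hmm' : m ≤ m' := le_max_left _ _
  have hsmall : C * WithZero.exp (-(m' : ℤ)) ≤ (WithZero.exp (-N) : Γ₀) := by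
    rw [← hCc, ← WithZero.exp_add, WithZero.exp_le_exp]
    have h1 : N + WithZero.log C ≤ ((N + WithZero.log C).toNat : ℤ) := Int.self_le_toNat _
    have h2 : ((N + WithZero.log C).toNat : ℤ) ≤ (m' : ℤ) := by
      exact_mod_cast le_max_right m (N + WithZero.log C).toNat
    omega
  intro u u' g hu hu'
  have hf : f (u * g * u') = f g := hinv u u' g (inU_mono125 hmm' hu) (inU_mono125 hmm' hu')
  unfold cutOff783
  by_cases hfg : f g = 0
  · simp only [hf, hfg, ite_self]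
  · obtain ⟨x, hx, w, hw, rfl⟩ := hF g hfg
    have hgC : ∀ i j, Valued.v (((x * w : GL (Fin 2) k) : Matrix (Fin 2) (Fin 2) k) i j) ≤ C := by
      intro i j
      have h1 : ((x * w : GL (Fin 2) k) : Matrix (Fin 2) (Fin 2) k)
          = (x : Matrix (Fin 2) (Fin 2) k) * (w : Matrix (Fin 2) (Fin 2) k) := by
        simp [Units.val_mul]
      rw [h1]
      have := v_mul_entry125 (hCx x hx).1 (inU_entry125 hw) i j
      rwa [mul_one] at this
    have hdC : Valued.v ((x * w : GL (Fin 2) k) : Matrix (Fin 2) (Fin 2) k).det ≤ C := by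
      have h1 : ((x * w : GL (Fin 2) k) : Matrix (Fin 2) (Fin 2) k)
          = (x : Matrix (Fin 2) (Fin 2) k) * (w : Matrix (Fin 2) (Fin 2) k) := by
        simp [Units.val_mul]
      rw [h1, Matrix.det_mul]
      have := v_mul_le125 (hCx x hx).2 (inU_det_le_one125 hw)
      rwa [mul_one] at this
    obtain ⟨ht, hd⟩ := pert125 hu hu' hgC hdC
    have hiff := hP _ _ _ _ (ht.trans hsmall) (hd.trans hsmall)
    rw [hf]
    exact if_congr hiff rfl rfl

/-! ## T6.18c': finite support at a deeper level -/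

theorem lt_one_iff_le125 {x : Γ₀} : x < 1 ↔ x ≤ WithZero.exp (-1 : ℤ) := by
  have h := WithZero.lt_mul_exp_iff_le (x := x) (y := WithZero.exp (-1 : ℤ))
    WithZero.exp_ne_zero
  rw [← WithZero.exp_add] at h
  have h0 : ((-1 : ℤ) + 1) = 0 := by norm_num
  rw [h0, WithZero.exp_zero] at h
  exact h

/-- Truncated `ϖ`-adic expansions: a finite set which approximates every integer of `k` modulo
`ϖⁿ`. -/
theorem approx125 {q : ℕ} (hk : IsLocalField k q) (n : ℕ) :
    ∃ S : Finset k, ∀ z : k, Valued.v z ≤ 1 →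
      ∃ s ∈ S, Valued.v (z - s) ≤ WithZero.exp (-(n : ℤ)) := by
  classical
  obtain ⟨ϖ, hϖ⟩ := hk.unif
  obtain ⟨T, -, -, -, hT⟩ := hk.residue
  have hϖ0 : ϖ ≠ 0 := by
    intro h
    rw [h, map_zero] at hϖ
    exact WithZero.exp_ne_zero hϖ.symm
  have hpow : ∀ n : ℕ, Valued.v (ϖ ^ n) = WithZero.exp (-(n : ℤ)) := by
    intro n
    rw [map_pow, hϖ, ← WithZero.exp_nsmul]
    congr 1
    simp
  induction n with
  | zero =>
    refine ⟨{0}, fun z hz => ⟨0, Finset.mem_singleton_self 0, ?_⟩⟩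
    rw [sub_zero]
    exact hz.trans (by simp)
  | succ n ih =>
    obtain ⟨S, hS⟩ := ih
    refine ⟨(S ×ˢ T).image (fun p => p.1 + p.2 * ϖ ^ n), fun z hz => ?_⟩
    obtain ⟨s, hs, hzs⟩ := hS z hz
    have hy : Valued.v ((z - s) / ϖ ^ n) ≤ 1 := by
      rw [map_div₀, hpow]
      exact (div_le_one₀ WithZero.exp_pos).2 hzs
    obtain ⟨t, ht, hyt⟩ := hT _ hy
    refine ⟨s + t * ϖ ^ n,
      Finset.mem_image.2 ⟨(s, t), Finset.mem_product.2 ⟨hs, ht⟩, rfl⟩, ?_⟩
    have hϖn : ϖ ^ n ≠ 0 := pow_ne_zero n hϖ0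
    have h1 : z - (s + t * ϖ ^ n) = ((z - s) / ϖ ^ n - t) * ϖ ^ n := by
      field_simp
      ring
    rw [h1, map_mul, hpow]
    have h2 := lt_one_iff_le125.1 hyt
    calc Valued.v ((z - s) / ϖ ^ n - t) * WithZero.exp (-(n : ℤ))
        ≤ WithZero.exp (-1 : ℤ) * WithZero.exp (-(n : ℤ)) := mul_le_mul' h2 le_rfl
      _ = WithZero.exp (-((n + 1 : ℕ) : ℤ)) := by
        rw [← WithZero.exp_add]
        congr 1
        push_cast
        ring

/-- Two elements of `U(m)` which agree modulo `ϖⁿ` differ by an element of `U(n)`. -/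
theorem inU_of_close125 {m n : ℕ} {w w' : GL (Fin 2) k} (hw : InU m w) (hw' : InU m w')
    (h : ∀ i j, Valued.v ((w : Matrix (Fin 2) (Fin 2) k) i j
      - (w' : Matrix (Fin 2) (Fin 2) k) i j) ≤ WithZero.exp (-(n : ℤ))) :
    InU n (w⁻¹ * w') := by
  have key : ∀ a b : GL (Fin 2) k, InU m a →
      (∀ i j, Valued.v ((a : Matrix (Fin 2) (Fin 2) k) i j
        - (b : Matrix (Fin 2) (Fin 2) k) i j) ≤ WithZero.exp (-(n : ℤ))) →
      ∀ i j, Valued.v (((a⁻¹ * b : GL (Fin 2) k) : Matrix (Fin 2) (Fin 2) k) i j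
        - (1 : Matrix (Fin 2) (Fin 2) k) i j) ≤ WithZero.exp (-(n : ℤ)) := by
    intro a b ha hab i j
    have h1 : ((a⁻¹ * b : GL (Fin 2) k) : Matrix (Fin 2) (Fin 2) k) - 1
        = ((a⁻¹ : GL (Fin 2) k) : Matrix (Fin 2) (Fin 2) k)
          * ((b : Matrix (Fin 2) (Fin 2) k) - (a : Matrix (Fin 2) (Fin 2) k)) := by
      rw [mul_sub, ← Units.val_mul, ← Units.val_mul, inv_mul_cancel, Units.val_one]
    have h2 : ∀ i j, Valued.v (((b : Matrix (Fin 2) (Fin 2) k)
        - (a : Matrix (Fin 2) (Fin 2) k)) i j) ≤ WithZero.exp (-(n : ℤ)) := by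
      intro i j
      rw [Matrix.sub_apply, Valuation.map_sub_swap]
      exact hab i j
    have h3 := v_mul_entry125 (inU_inv_entry125 ha) h2 i j
    rw [one_mul, ← h1] at h3
    exact h3
  intro i j
  refine ⟨key w w' hw h i j, ?_⟩
  have h0 : (w⁻¹ * w')⁻¹ = w'⁻¹ * w := by group
  rw [h0]
  refine key w' w hw' (fun i j => ?_) i j
  rw [Valuation.map_sub_swap]
  exact h i j

/-- **T6.18c'** `FinSuppLvlC783`. -/
theorem finSuppLvlC125 : FinSuppLvlC783 := by
  intro k _ _ q hk m m' f _ hsupp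
  classical
  obtain ⟨F, hF⟩ := hsupp
  obtain ⟨S, hS⟩ := approx125 hk m'
  let I : Finset (Fin 2 → Fin 2 → k) :=
    Fintype.piFinset (fun _ => Fintype.piFinset (fun _ => S))
  let ok : (Fin 2 → Fin 2 → k) → GL (Fin 2) k → Prop := fun r w =>
    InU m w ∧ ∀ i j, Valued.v ((w : Matrix (Fin 2) (Fin 2) k) i j - r i j)
      ≤ WithZero.exp (-(m' : ℤ))
  let rep : (Fin 2 → Fin 2 → k) → GL (Fin 2) k := fun r =>
    if h : ∃ w, ok r w then Classical.choose h else 1
  refine ⟨(F ×ˢ I.image rep).image (fun p => p.1 * p.2), fun g hg => ?_⟩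
  obtain ⟨x, hx, w, hw, rfl⟩ := hF g hg
  have hex : ∀ i j, ∃ s ∈ S, Valued.v ((w : Matrix (Fin 2) (Fin 2) k) i j - s)
      ≤ WithZero.exp (-(m' : ℤ)) := fun i j => hS _ (inU_entry125 hw i j)
  choose r hrS hr using hex
  have hrI : r ∈ I := by
    simp only [I, Fintype.mem_piFinset]
    exact fun i j => hrS i j
  have hok : ∃ w₀, ok r w₀ := ⟨w, hw, hr⟩
  have hrep : rep r = Classical.choose hok := dif_pos hok
  obtain ⟨hw₀, hw₀r⟩ := Classical.choose_spec hok
  refine ⟨x * Classical.choose hok, ?_, (Classical.choose hok)⁻¹ * w, ?_, ?_⟩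
  · exact Finset.mem_image.2 ⟨(x, Classical.choose hok),
      Finset.mem_product.2 ⟨hx, Finset.mem_image.2 ⟨r, hrI, hrep⟩⟩, rfl⟩
  · apply inU_of_close125 hw₀ hw
    intro i j
    have h1 : ((Classical.choose hok : GL (Fin 2) k) : Matrix (Fin 2) (Fin 2) k) i j
        - (w : Matrix (Fin 2) (Fin 2) k) i j
        = (((Classical.choose hok : GL (Fin 2) k) : Matrix (Fin 2) (Fin 2) k) i j - r i j)
          - ((w : Matrix (Fin 2) (Fin 2) k) i j - r i j) := by ring
    rw [h1]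
    exact v_sub_le125 (hw₀r i j) (hr i j)
  · group

end Fermat.Agent.LT.T6.H125

end
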